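import Fermat.Agent.S24.H902.EtaBridge

/-!
# Analytic `q`-expansion of `j = E₄³/Δ` equals the Prelude's formal `jNum`

Main result `hasSum_jNum`: for `τ ∈ ℍ` and `q = exp(2πiτ)`,
`∑ (jNum.coeff n) qⁿ = q · E₄(τ)³ / Δ(τ)`.
-/

set_option autoImplicit false

noncomputable section

namespace Fermat.Agent.S24.H902

open Complex PowerSeries Filter Topology ModularCurve UpperHalfPlane ModularForm
  EisensteinSeries
open scoped MatrixGroups Real

local notation "𝕢" => Function.Periodic.qParam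

local notation "Δ" => ModularForm.discriminant

/-- The `q`-expansion of `E₄` is the (image of the) Prelude's integral series `eisenstein4`. -/
theorem qExpansion_E4_eq :
    qExpansion 1 E₄ = PowerSeries.map (Int.castRingHom ℂ) eisenstein4 := by
  ext m
  rw [E_qExpansion_coeff _ ⟨2, rfl⟩, PowerSeries.coeff_map, eisenstein4, PowerSeries.coeff_mk]
  by_cases hm : m = 0
  · simp [hm]
  · simp only [hm, if_false]
    rw [ArithmeticFunction.sigma_apply]
    norm_num [show bernoulli 4 = -1 / 30 by decide +kernel]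

theorem norm_qParam_one_lt_one (τ : ℍ) : ‖𝕢 1 (τ : ℂ)‖ < 1 :=
  Function.Periodic.norm_qParam_lt_one one_pos τ.im_pos

theorem ev_eisenstein4 (τ : ℍ) :
    Ev (PowerSeries.map (Int.castRingHom ℂ) eisenstein4) (𝕢 1 (τ : ℂ)) (E₄ τ) := by
  have h := ModularForm.hasSum_qExpansion E₄ one_pos one_mem_strictPeriods_SL τ
  rw [qExpansion_E4_eq] at h
  exact h

theorem discriminant_eq_q_mul_eulerFn_pow (τ : ℍ) :
    Δ τ = 𝕢 1 (τ : ℂ) * (∏' n : ℕ, (1 - (𝕢 1 (τ : ℂ)) ^ (n + 1))) ^ 24 := by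
  rw [discriminant_eq_q_prod]
  congr 1
  exact (ModularForm.multipliable_one_sub_pow (norm_qParam_one_lt_one τ)).tprod_pow 24

/-- **Bridge.** The Prelude's formal series `jNum` (so that `jq = q⁻¹ · jNum`) evaluates at
`q = exp(2πiτ)` to `q · E₄(τ)³/Δ(τ)`. -/
theorem ev_jNum (τ : ℍ) :
    Ev (PowerSeries.map (Int.castRingHom ℂ) jNum) (𝕢 1 (τ : ℂ))
      (𝕢 1 (τ : ℂ) * (E₄ τ ^ 3 / Δ τ)) := by
  have hq := norm_qParam_one_lt_one τ
  have hq0 : 𝕢 1 (τ : ℂ) ≠ 0 := Function.Periodic.qParam_ne_zero _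
  have hP : (∏' n : ℕ, (1 - (𝕢 1 (τ : ℂ)) ^ (n + 1))) ^ 24 ≠ 0 :=
    pow_ne_zero 24 (eulerFn_ne_zero hq)
  have h := ((ev_eisenstein4 τ).pow 3).mul (ev_dedekindEtaUnitInv hq)
  rw [jNum, map_mul, map_pow]
  refine h.congr_val ?_
  rw [discriminant_eq_q_mul_eulerFn_pow]
  field_simp

/-- The same statement as a plain `HasSum` with integer coefficients. -/
theorem hasSum_jNum (τ : ℍ) :
    HasSum (fun n : ℕ => ((PowerSeries.coeff n jNum : ℤ) : ℂ) * (𝕢 1 (τ : ℂ)) ^ n)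
      (𝕢 1 (τ : ℂ) * (E₄ τ ^ 3 / Δ τ)) := by
  have h := ev_jNum τ
  unfold Ev at h
  simpa [PowerSeries.coeff_map] using h

/-- Variant with `cexp (2πiτ)` written out. -/
theorem hasSum_jNum_cexp (τ : ℍ) :
    HasSum (fun n : ℕ => ((PowerSeries.coeff n jNum : ℤ) : ℂ) * cexp (2 * π * Complex.I * τ) ^ n)
      (cexp (2 * π * Complex.I * τ) * (E₄ τ ^ 3 / Δ τ)) := by
  have h := hasSum_jNum τ
  have e : 𝕢 1 (τ : ℂ) = cexp (2 * π * Complex.I * τ) := by
    simp [Function.Periodic.qParam]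
  rw [e] at h
  exact h

end Fermat.Agent.S24.H902
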