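import Fermat.Agent.S24.H902.PowerEval
import Fermat.Prelude.Def_ModularCurve_X0

/-!
# The Euler product: formal power series versus analytic function

The formal product `ModularCurve.etaProd = ∏' n, (1 - X^(n+1)) : ℤ⟦X⟧` (Pi topology) evaluates,
for `‖q‖ < 1`, to the analytic infinite product `∏' n, (1 - q^(n+1))`.
-/

set_option autoImplicit false

noncomputable section

namespace Fermat.Agent.S24.H902

open Complex PowerSeries Filter Topology ModularCurve
open scoped PowerSeries.WithPiTopology

/-- The Euler function `q ↦ ∏ (1 - q^(n+1))` on `ℂ` (meaningful for `‖q‖ < 1`). -/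
def eulerFn (q : ℂ) : ℂ := ∏' n : ℕ, (1 - q ^ (n + 1))

theorem differentiableOn_eulerFn : DifferentiableOn ℂ eulerFn (Metric.ball 0 1) :=
  ModularForm.differentiableOn_tprod_one_sub_pow

theorem eulerFn_ne_zero {q : ℂ} (hq : ‖q‖ < 1) : eulerFn q ≠ 0 := by
  unfold eulerFn
  have hs : Summable fun n : ℕ => ‖-q ^ (n + 1)‖ := by
    simpa using (summable_nat_add_iff 1).mpr (summable_geometric_of_lt_one (norm_nonneg q) hq)
  have := tprod_one_add_ne_zero_of_summable (f := fun n : ℕ => -q ^ (n + 1)) ?_ hs
  · simpa [sub_eq_add_neg] using this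
  · intro i
    have hlt : ‖q ^ (i + 1)‖ < 1 := by
      rw [norm_pow]
      exact pow_lt_one₀ (norm_nonneg q) hq (Nat.succ_ne_zero i)
    intro h0
    have h0' : 1 + -q ^ (i + 1) = 0 := h0
    have : q ^ (i + 1) = 1 := by
      linear_combination -h0'
    rw [this] at hlt
    simp at hlt

/-- Partial products as polynomials. -/
def partialPoly (s : Finset ℕ) : Polynomial ℂ := ∏ i ∈ s, (1 - Polynomial.X ^ (i + 1))

theorem eval_partialPoly (s : Finset ℕ) (q : ℂ) :
    (partialPoly s).eval q = ∏ i ∈ s, (1 - q ^ (i + 1)) := by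
  simp [partialPoly, Polynomial.eval_prod]

theorem iteratedDeriv_polynomial_eval (p : Polynomial ℂ) (n : ℕ) :
    iteratedDeriv n (fun x => p.eval x) = fun x => ((Polynomial.derivative)^[n] p).eval x := by
  induction n with
  | zero => simp
  | succ n ih =>
    rw [iteratedDeriv_succ, ih]
    funext x
    rw [Polynomial.deriv, Function.iterate_succ_apply']

theorem tendstoLocallyUniformlyOn_partialPoly :
    TendstoLocallyUniformlyOn (fun (s : Finset ℕ) (q : ℂ) => (partialPoly s).eval q) eulerFn
      atTop (Metric.ball 0 1) := by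
  have h := ModularForm.multipliableLocallyUniformlyOn_one_sub_pow.hasProdLocallyUniformlyOn
  unfold HasProdLocallyUniformlyOn at h
  have e : (fun (s : Finset ℕ) (q : ℂ) => (partialPoly s).eval q)
      = fun (s : Finset ℕ) (q : ℂ) => ∏ i ∈ s, (1 - q ^ (i + 1)) := by
    funext s q
    exact eval_partialPoly s q
  rw [e]
  exact h

theorem tendstoLocallyUniformlyOn_iteratedDeriv_partialPoly (n : ℕ) :
    TendstoLocallyUniformlyOn
      (fun (s : Finset ℕ) => iteratedDeriv n (fun q : ℂ => (partialPoly s).eval q))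
      (iteratedDeriv n eulerFn) atTop (Metric.ball 0 1) := by
  induction n with
  | zero =>
    simp only [iteratedDeriv_zero]
    exact tendstoLocallyUniformlyOn_partialPoly
  | succ n ih =>
    have hd : ∀ᶠ s : Finset ℕ in atTop, DifferentiableOn ℂ
        (iteratedDeriv n (fun q : ℂ => (partialPoly s).eval q)) (Metric.ball 0 1) := by
      refine Eventually.of_forall fun s => ?_
      rw [iteratedDeriv_polynomial_eval]
      exact (Polynomial.differentiable _).differentiableOn
    have h := ih.deriv hd Metric.isOpen_ball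
    have e : (deriv ∘ fun (s : Finset ℕ) => iteratedDeriv n (fun q : ℂ => (partialPoly s).eval q))
        = fun (s : Finset ℕ) => iteratedDeriv (n + 1) (fun q : ℂ => (partialPoly s).eval q) := by
      funext s
      simp only [Function.comp_apply]
      rw [iteratedDeriv_succ]
    rw [e, ← iteratedDeriv_succ] at h
    exact h

theorem iteratedDeriv_partialPoly_zero (s : Finset ℕ) (n : ℕ) :
    iteratedDeriv n (fun q : ℂ => (partialPoly s).eval q) 0
      = (n.factorial : ℂ) * (partialPoly s).coeff n := by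
  rw [iteratedDeriv_polynomial_eval]
  simp only []
  rw [← Polynomial.coeff_zero_eq_eval_zero, Polynomial.coeff_iterate_derivative, zero_add,
    Nat.descFactorial_self, nsmul_eq_mul]

/-- Partial products as integral formal power series. -/
theorem coeff_partialPoly (s : Finset ℕ) (n : ℕ) :
    (partialPoly s).coeff n
      = ((PowerSeries.coeff n (∏ i ∈ s, (1 - PowerSeries.X ^ (i + 1)) : PowerSeries ℤ) : ℤ) : ℂ) := by
  have h1 : ((partialPoly s : Polynomial ℂ) : PowerSeries ℂ)
      = PowerSeries.map (Int.castRingHom ℂ) (∏ i ∈ s, (1 - PowerSeries.X ^ (i + 1))) := by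
    rw [partialPoly, ← Polynomial.coeToPowerSeries.ringHom_apply, map_prod, map_prod]
    refine Finset.prod_congr rfl fun i _ => ?_
    simp
  have h2 := congrArg (PowerSeries.coeff n) h1
  rw [Polynomial.coeff_coe, PowerSeries.coeff_map] at h2
  simpa using h2

theorem tendsto_coeff_formal (n : ℕ) :
    Tendsto (fun s : Finset ℕ =>
      (PowerSeries.coeff n (∏ i ∈ s, (1 - PowerSeries.X ^ (i + 1)) : PowerSeries ℤ)))
      atTop (𝓝 (PowerSeries.coeff n etaProd)) := by
  have h := (PowerSeries.WithPiTopology.multipliable_one_sub_X_pow ℤ).hasProd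
  have h' : Tendsto (fun s : Finset ℕ => (∏ i ∈ s, (1 - PowerSeries.X ^ (i + 1)) : PowerSeries ℤ))
      atTop (𝓝 etaProd) := by
    simpa [HasProd, etaProd] using h
  exact ((PowerSeries.WithPiTopology.continuous_coeff ℤ n).tendsto _).comp h'

/-- **Taylor coefficients of the Euler function are the coefficients of the formal product.** -/
theorem taylor0_eulerFn : taylor0 eulerFn = PowerSeries.map (Int.castRingHom ℂ) etaProd := by
  ext n
  rw [coeff_taylor0, PowerSeries.coeff_map]
  have h1 : Tendsto (fun s : Finset ℕ => iteratedDeriv n (fun q : ℂ => (partialPoly s).eval q) 0)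
      atTop (𝓝 (iteratedDeriv n eulerFn 0)) :=
    (tendstoLocallyUniformlyOn_iteratedDeriv_partialPoly n).tendsto_at
      (Metric.mem_ball_self one_pos)
  have h2 : Tendsto (fun s : Finset ℕ => iteratedDeriv n (fun q : ℂ => (partialPoly s).eval q) 0)
      atTop (𝓝 ((n.factorial : ℂ) * ((PowerSeries.coeff n etaProd : ℤ) : ℂ))) := by
    have h3 : Tendsto (fun s : Finset ℕ => (n.factorial : ℂ) *
        ((PowerSeries.coeff n (∏ i ∈ s, (1 - PowerSeries.X ^ (i + 1)) : PowerSeries ℤ) : ℤ) : ℂ))
        atTop (𝓝 ((n.factorial : ℂ) * ((PowerSeries.coeff n etaProd : ℤ) : ℂ))) := by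
      refine Tendsto.const_mul _ ?_
      exact ((continuous_of_discreteTopology (f := fun k : ℤ => (k : ℂ))).tendsto _).comp
        (tendsto_coeff_formal n)
    refine h3.congr fun s => ?_
    rw [iteratedDeriv_partialPoly_zero, coeff_partialPoly]
  have h4 := tendsto_nhds_unique h1 h2
  rw [h4]
  have hn : (n.factorial : ℂ) ≠ 0 := by exact_mod_cast n.factorial_ne_zero
  simp [hn]

/-- The formal Euler product evaluates to the analytic Euler product on the unit disc. -/
theorem ev_etaProd {q : ℂ} (hq : ‖q‖ < 1) :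
    Ev (PowerSeries.map (Int.castRingHom ℂ) etaProd) q (∏' n : ℕ, (1 - q ^ (n + 1))) := by
  rw [← taylor0_eulerFn]
  exact ev_taylor0 differentiableOn_eulerFn hq

/-- `dedekindEtaUnit = etaProd ^ 24` evaluates to `(∏ (1 - q^(n+1)))^24`. -/
theorem ev_dedekindEtaUnit {q : ℂ} (hq : ‖q‖ < 1) :
    Ev (PowerSeries.map (Int.castRingHom ℂ) dedekindEtaUnit) q
      ((∏' n : ℕ, (1 - q ^ (n + 1))) ^ 24) := by
  rw [dedekindEtaUnit, map_pow]
  exact (ev_etaProd hq).pow 24

/-- The formal inverse `dedekindEtaUnitInv` evaluates to `1 / (∏ (1 - q^(n+1)))^24`. -/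
theorem ev_dedekindEtaUnitInv {q : ℂ} (hq : ‖q‖ < 1) :
    Ev (PowerSeries.map (Int.castRingHom ℂ) dedekindEtaUnitInv) q
      ((∏' n : ℕ, (1 - q ^ (n + 1))) ^ 24)⁻¹ := by
  have hmul : PowerSeries.map (Int.castRingHom ℂ) dedekindEtaUnit
      * PowerSeries.map (Int.castRingHom ℂ) dedekindEtaUnitInv = 1 := by
    rw [← map_mul, dedekindEtaUnit_mul_inv, map_one]
  exact ev_of_mul_eq_one (U := fun q => (∏' n : ℕ, (1 - q ^ (n + 1))) ^ 24) one_pos
    (fun q hq => ev_dedekindEtaUnit hq)
    (fun q hq => pow_ne_zero 24 (eulerFn_ne_zero hq)) hmul hq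

end Fermat.Agent.S24.H902
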