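import Mathlib

/-!
# Evaluation of formal power series over `ℂ` at points of a disc

`Ev f q v` says that the power series `f` converges (unconditionally) at `q` with sum `v`.
We prove: compatibility with products (Cauchy product), uniqueness of the power series of a
function on a disc, the Taylor series of a function differentiable on a disc, and that the
formal inverse of a power series computes the inverse of the value.
-/

set_option autoImplicit false

noncomputable section

namespace Fermat.Agent.S24.H902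

open Complex PowerSeries Filter Topology

/-- `Ev f q v`: the power series `f` converges at `q` with sum `v`. -/
def Ev (f : PowerSeries ℂ) (q v : ℂ) : Prop :=
  HasSum (fun n : ℕ => PowerSeries.coeff n f * q ^ n) v

theorem Ev.hasSum {f : PowerSeries ℂ} {q v : ℂ} (h : Ev f q v) :
    HasSum (fun n : ℕ => PowerSeries.coeff n f * q ^ n) v := h

theorem ev_iff {f : PowerSeries ℂ} {q v : ℂ} :
    Ev f q v ↔ HasSum (fun n : ℕ => PowerSeries.coeff n f * q ^ n) v := Iff.rfl

theorem Ev.unique {f : PowerSeries ℂ} {q v w : ℂ} (h : Ev f q v) (h' : Ev f q w) : v = w :=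
  HasSum.unique h h'

theorem Ev.congr_val {f : PowerSeries ℂ} {q v w : ℂ} (h : Ev f q v) (hvw : v = w) : Ev f q w :=
  hvw ▸ h

theorem ev_one (q : ℂ) : Ev 1 q 1 := by
  unfold Ev
  have : (fun n : ℕ => PowerSeries.coeff n (1 : PowerSeries ℂ) * q ^ n)
      = fun n : ℕ => if n = 0 then (1 : ℂ) else 0 := by
    funext n
    by_cases hn : n = 0
    · subst hn; simp
    · simp [PowerSeries.coeff_one, hn]
  rw [this]
  exact hasSum_ite_eq 0 (1 : ℂ)

theorem ev_C (c q : ℂ) : Ev (PowerSeries.C c) q c := by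
  unfold Ev
  have : (fun n : ℕ => PowerSeries.coeff n (PowerSeries.C c : PowerSeries ℂ) * q ^ n)
      = fun n : ℕ => if n = 0 then c else 0 := by
    funext n
    by_cases hn : n = 0
    · subst hn; simp
    · simp [PowerSeries.coeff_C, hn]
  rw [this]
  exact hasSum_ite_eq 0 c

theorem ev_X (q : ℂ) : Ev PowerSeries.X q q := by
  unfold Ev
  have : (fun n : ℕ => PowerSeries.coeff n (PowerSeries.X : PowerSeries ℂ) * q ^ n)
      = fun n : ℕ => if n = 1 then q else 0 := by
    funext n
    by_cases hn : n = 1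
    · subst hn; simp
    · simp [PowerSeries.coeff_X, hn]
  rw [this]
  exact hasSum_ite_eq 1 q

theorem Ev.add {f g : PowerSeries ℂ} {q v w : ℂ} (hf : Ev f q v) (hg : Ev g q w) :
    Ev (f + g) q (v + w) := by
  unfold Ev at *
  have h := HasSum.add hf hg
  have e : (fun n : ℕ => PowerSeries.coeff n (f + g) * q ^ n)
      = fun n : ℕ => PowerSeries.coeff n f * q ^ n + PowerSeries.coeff n g * q ^ n := by
    funext n
    rw [map_add, add_mul]
  rw [e]
  exact h

theorem Ev.smul {f : PowerSeries ℂ} {q v : ℂ} (c : ℂ) (hf : Ev f q v) :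
    Ev (c • f) q (c * v) := by
  unfold Ev at *
  have h := HasSum.mul_left c hf
  have e : (fun n : ℕ => PowerSeries.coeff n (c • f) * q ^ n)
      = fun n : ℕ => c * (PowerSeries.coeff n f * q ^ n) := by
    funext n
    rw [map_smul, smul_eq_mul, mul_assoc]
  rw [e]
  exact h

/-- Cauchy product. -/
theorem Ev.mul {f g : PowerSeries ℂ} {q v w : ℂ} (hf : Ev f q v) (hg : Ev g q w) :
    Ev (f * g) q (v * w) := by
  have hfs : Summable fun n : ℕ => ‖PowerSeries.coeff n f * q ^ n‖ :=
    summable_norm_iff.mpr hf.summable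
  have hgs : Summable fun n : ℕ => ‖PowerSeries.coeff n g * q ^ n‖ :=
    summable_norm_iff.mpr hg.summable
  have h1 := tsum_mul_tsum_eq_tsum_sum_antidiagonal_of_summable_norm hfs hgs
  have h2 := summable_norm_sum_mul_antidiagonal_of_summable_norm hfs hgs
  have h3 : Summable fun n : ℕ => ∑ kl ∈ Finset.HasAntidiagonal.antidiagonal n,
      (PowerSeries.coeff kl.1 f * q ^ kl.1) * (PowerSeries.coeff kl.2 g * q ^ kl.2) :=
    summable_norm_iff.mp h2
  have key : ∀ n : ℕ, ∑ kl ∈ Finset.HasAntidiagonal.antidiagonal n,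
      (PowerSeries.coeff kl.1 f * q ^ kl.1) * (PowerSeries.coeff kl.2 g * q ^ kl.2)
        = PowerSeries.coeff n (f * g) * q ^ n := by
    intro n
    rw [PowerSeries.coeff_mul, Finset.sum_mul]
    refine Finset.sum_congr rfl fun kl hkl => ?_
    have hkl' := Finset.HasAntidiagonal.mem_antidiagonal.mp hkl
    rw [← hkl', pow_add]
    ring
  unfold Ev
  have h4 : HasSum (fun n : ℕ => ∑ kl ∈ Finset.HasAntidiagonal.antidiagonal n,
      (PowerSeries.coeff kl.1 f * q ^ kl.1) * (PowerSeries.coeff kl.2 g * q ^ kl.2)) (v * w) := by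
    have := h3.hasSum
    rw [← h1, hf.tsum_eq, hg.tsum_eq] at this
    exact this
  have e : (fun n : ℕ => PowerSeries.coeff n (f * g) * q ^ n)
      = fun n : ℕ => ∑ kl ∈ Finset.HasAntidiagonal.antidiagonal n,
      (PowerSeries.coeff kl.1 f * q ^ kl.1) * (PowerSeries.coeff kl.2 g * q ^ kl.2) :=
    funext fun n => (key n).symm
  rw [e]
  exact h4

theorem Ev.pow {f : PowerSeries ℂ} {q v : ℂ} (hf : Ev f q v) (k : ℕ) :
    Ev (f ^ k) q (v ^ k) := by
  induction k with
  | zero => simpa using ev_one q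
  | succ k ih => rw [pow_succ, pow_succ]; exact ih.mul hf

/-- A function given on a disc by a convergent power series has that series as its
formal power series expansion at `0`. -/
theorem hasFPowerSeriesOnBall_of_ev {a : PowerSeries ℂ} {r : NNReal} (hr : 0 < r) {c : ℂ → ℂ}
    (ha : ∀ q : ℂ, ‖q‖ < r → Ev a q (c q)) :
    HasFPowerSeriesOnBall c
      (FormalMultilinearSeries.ofScalars ℂ fun n => PowerSeries.coeff n a) 0 r := by
  constructor
  · refine le_of_forall_lt_imp_le_of_dense fun r' hr' => ?_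
    lift r' to NNReal using hr'.ne_top
    have hr'' : (r' : ℝ) < r := by exact_mod_cast hr'
    apply FormalMultilinearSeries.le_radius_of_summable
    have hs := (ha (r' : ℂ) (by simpa using hr'')).summable.norm
    refine hs.congr fun n => ?_
    rw [FormalMultilinearSeries.ofScalars_norm]
    simp [norm_pow]
  · exact_mod_cast hr
  · intro y hy
    rw [Metric.eball_coe, mem_ball_zero_iff] at hy
    have h := ha y hy
    unfold Ev at h
    rw [zero_add]
    have e : (fun n : ℕ => (FormalMultilinearSeries.ofScalars ℂ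
        (fun n => PowerSeries.coeff n a)) n fun _ => y)
        = fun n : ℕ => PowerSeries.coeff n a * y ^ n := by
      funext n
      rw [FormalMultilinearSeries.ofScalars_apply_eq]
      simp
    rw [e]
    exact h

/-- Uniqueness of power series expansions on a disc. -/
theorem ev_series_unique {a b : PowerSeries ℂ} {r : ℝ} (hr : 0 < r) {c : ℂ → ℂ}
    (ha : ∀ q : ℂ, ‖q‖ < r → Ev a q (c q)) (hb : ∀ q : ℂ, ‖q‖ < r → Ev b q (c q)) :
    a = b := by
  lift r to NNReal using hr.le
  have hr' : 0 < r := by exact_mod_cast hr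
  have h1 := (hasFPowerSeriesOnBall_of_ev hr' ha).hasFPowerSeriesAt
  have h2 := (hasFPowerSeriesOnBall_of_ev hr' hb).hasFPowerSeriesAt
  have h3 := h1.eq_formalMultilinearSeries h2
  have h4 := FormalMultilinearSeries.ofScalars_series_injective ℂ ℂ h3
  ext n
  exact congrFun h4 n

/-- The Taylor series at `0` of a function, as a formal power series. -/
def taylor0 (F : ℂ → ℂ) : PowerSeries ℂ :=
  PowerSeries.mk fun n => ((n.factorial : ℂ))⁻¹ * iteratedDeriv n F 0

@[simp]
theorem coeff_taylor0 (F : ℂ → ℂ) (n : ℕ) :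
    PowerSeries.coeff n (taylor0 F) = ((n.factorial : ℂ))⁻¹ * iteratedDeriv n F 0 := by
  simp [taylor0]

/-- A function differentiable on a disc around `0` is the sum of its Taylor series there. -/
theorem ev_taylor0 {F : ℂ → ℂ} {r : ℝ} (hF : DifferentiableOn ℂ F (Metric.ball 0 r)) {q : ℂ}
    (hq : ‖q‖ < r) : Ev (taylor0 F) q (F q) := by
  have h := Complex.hasSum_taylorSeries_on_ball hF (z := q) (by simpa using hq)
  unfold Ev
  have e : (fun n : ℕ => PowerSeries.coeff n (taylor0 F) * q ^ n)
      = fun n : ℕ => ((n.factorial : ℂ))⁻¹ • (q - 0) ^ n • iteratedDeriv n F 0 := by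
    funext n
    rw [coeff_taylor0, sub_zero, smul_eq_mul, smul_eq_mul]
    ring
  rw [e]
  exact h

/-- If a power series represents `F` on a disc, it is the Taylor series of `F`. -/
theorem eq_taylor0_of_ev {a : PowerSeries ℂ} {r : ℝ} (hr : 0 < r) {F : ℂ → ℂ}
    (hF : DifferentiableOn ℂ F (Metric.ball 0 r))
    (ha : ∀ q : ℂ, ‖q‖ < r → Ev a q (F q)) : a = taylor0 F :=
  ev_series_unique hr ha fun _ hq => ev_taylor0 hF hq

/-- A convergent power series on a disc defines a differentiable function there. -/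
theorem differentiableOn_of_ev {a : PowerSeries ℂ} {r : ℝ} (hr : 0 < r) {c : ℂ → ℂ}
    (ha : ∀ q : ℂ, ‖q‖ < r → Ev a q (c q)) : DifferentiableOn ℂ c (Metric.ball 0 r) := by
  lift r to NNReal using hr.le
  have hr' : 0 < r := by exact_mod_cast hr
  have h := (hasFPowerSeriesOnBall_of_ev hr' ha).analyticOnNhd
  rw [Metric.eball_coe] at h
  exact h.differentiableOn

/-- **Formal inverse = analytic inverse.**  If `u` represents a nowhere vanishing function `U`
on the disc of radius `r` and `u * w = 1` formally, then `w` represents `1 / U` on that disc. -/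
theorem ev_of_mul_eq_one {u w : PowerSeries ℂ} {r : ℝ} (hr : 0 < r) {U : ℂ → ℂ}
    (hu : ∀ q : ℂ, ‖q‖ < r → Ev u q (U q)) (hU : ∀ q : ℂ, ‖q‖ < r → U q ≠ 0)
    (huw : u * w = 1) {q : ℂ} (hq : ‖q‖ < r) : Ev w q (U q)⁻¹ := by
  have hUd : DifferentiableOn ℂ U (Metric.ball 0 r) := differentiableOn_of_ev hr hu
  have hGd : DifferentiableOn ℂ (fun q => (U q)⁻¹) (Metric.ball 0 r) :=
    hUd.inv fun x hx => hU x (by simpa using hx)
  have hg : ∀ q : ℂ, ‖q‖ < r → Ev (taylor0 fun q => (U q)⁻¹) q (U q)⁻¹ :=
    fun q hq => ev_taylor0 hGd hq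
  have hprod : ∀ q : ℂ, ‖q‖ < r → Ev (u * taylor0 fun q => (U q)⁻¹) q 1 := fun q hq =>
    ((hu q hq).mul (hg q hq)).congr_val (mul_inv_cancel₀ (hU q hq))
  have hone : u * (taylor0 fun q => (U q)⁻¹) = 1 :=
    ev_series_unique (c := fun _ => 1) hr hprod fun q _ => ev_one q
  have hw : w = taylor0 fun q => (U q)⁻¹ := by
    calc w = w * (u * taylor0 fun q => (U q)⁻¹) := by rw [hone, mul_one]
      _ = (u * w) * taylor0 (fun q => (U q)⁻¹) := by ring
      _ = taylor0 fun q => (U q)⁻¹ := by rw [huw, one_mul]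
  rw [hw]
  exact hg q hq

end Fermat.Agent.S24.H902
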